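import Fermat.Agent.AbScheme.Line.Basic

/-!
Sections of cocycles: pullback, pairing, frames on affine schemes, gluing.
-/

set_option autoImplicit false
set_option linter.unusedSectionVars false

noncomputable section

universe u v

namespace FLTAgent.AbScheme

open CategoryTheory AlgebraicGeometry TopologicalSpace Opposite

variable {X Y : Scheme.{u}}

/-- Extension of a section from the locus of `f`, up to a power of `f`. -/
theorem exists_res_eq_pow_mul {W : X.Opens} (hW : IsAffineOpen W) (f : Γ(X, ⊤)) {V : X.Opens}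
    (hV : V ≤ W) (e : V = W ⊓ X.basicOpen f) (a : Γ(X, V)) :
    ∃ (N : ℕ) (b : Γ(X, W)), res hV b = res le_top f ^ N * a := by
  letI : Algebra Γ(X, W) Γ(X, V) := (X.presheaf.map (homOfLE hV).op).hom.toAlgebra
  haveI : IsLocalization.Away (res le_top f : Γ(X, W)) Γ(X, V) :=
    hW.isLocalization_of_eq_basicOpen _ (homOfLE hV)
      (e.trans (X.basicOpen_res f (homOfLE (le_top : W ≤ ⊤)).op).symm)
  obtain ⟨N, b, hb⟩ := IsLocalization.Away.surj (res le_top f : Γ(X, W)) a
  refine ⟨N, b, ?_⟩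
  show algebraMap Γ(X, W) Γ(X, V) b = _
  rw [← hb, mul_comm, RingHom.algebraMap_toAlgebra, ← map_pow, map_pow]
  show res hV (res le_top f) ^ N * a = _
  rw [res_res]

/-- A section vanishing on the locus of `f` is killed by a power of `f`. -/
theorem exists_pow_mul_eq_zero {W : X.Opens} (hW : IsAffineOpen W) (f : Γ(X, ⊤)) {V : X.Opens}
    (hV : V ≤ W) (e : V = W ⊓ X.basicOpen f) {b : Γ(X, W)} (hb : res hV b = 0) :
    ∃ N : ℕ, res le_top f ^ N * b = 0 := by
  letI : Algebra Γ(X, W) Γ(X, V) := (X.presheaf.map (homOfLE hV).op).hom.toAlgebra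
  haveI : IsLocalization.Away (res le_top f : Γ(X, W)) Γ(X, V) :=
    hW.isLocalization_of_eq_basicOpen _ (homOfLE hV)
      (e.trans (X.basicOpen_res f (homOfLE (le_top : W ≤ ⊤)).op).symm)
  have h0 : algebraMap Γ(X, W) Γ(X, V) b = 0 := hb
  obtain ⟨⟨_, N, rfl⟩, hm⟩ :=
    (IsLocalization.map_eq_zero_iff (Submonoid.powers (res le_top f : Γ(X, W))) Γ(X, V) b).1 h0
  exact ⟨N, hm⟩

namespace LB

/-- Pullback of a section. -/
def Sec.pullback (φ : X ⟶ Y) {L : LB Y} (s : L.Sec) : (L.pull φ).Sec where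
  s x := (φ.app (L.U (φ x))).hom (s.s (φ x))
  rel x y := by
    let B := L.U (φ x) ⊓ L.U (φ y)
    have hB : (L.pull φ).U x ⊓ (L.pull φ).U y ≤ φ ⁻¹ᵁ B := le_rfl
    have e := congrArg (fun a => res hB ((φ.app B).hom a)) (s.rel (φ x) (φ y))
    simp only [map_mul] at e
    exact ((res_app φ (inf_le_left : B ≤ _) _ hB _).trans e).trans
      (congrArg₂ (· * ·) (res_self _) (res_app φ (inf_le_right : B ≤ _) _ hB _).symm)

theorem Sec.exists_pairs {L : LB X} (s : L.Sec) (t : L.inv.Sec) :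
    ∃! c : Γ(X, ⊤), s.Pairs t c := by
  obtain ⟨c, hc⟩ := exists_res_eq (U := ⊤) L.U (fun _ => le_top) (fun x _ => ⟨x, L.mem x⟩)
    (fun x => s.s x * (show Γ(X, L.U x) from t.s x)) fun x y => by
      have h : L.U x ⊓ L.U y ≤ L.U x ⊓ L.U y := le_rfl
      have h' : L.U x ⊓ L.U y ≤ L.U y ⊓ L.U x := le_inf inf_le_right inf_le_left
      have es := s.res_rel (inf_le_left : L.U x ⊓ L.U y ≤ _) inf_le_right h
      have et : res (inf_le_left : L.U x ⊓ L.U y ≤ L.U x) (t.s x) =
          res h' (L.g y x) * res (inf_le_right : L.U x ⊓ L.U y ≤ L.U y) (t.s y) :=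
        (t.res_rel inf_le_left inf_le_right h).trans (by rw [res_g_inv]; rfl)
      refine (map_mul _ _ _).trans (Eq.trans ?_ (map_mul _ _ _).symm)
      refine (congrArg₂ (· * ·) es et).trans ?_
      linear_combination res inf_le_right (s.s y) * res inf_le_right (t.s y) * L.res_g_mul_g h h'
  exact ⟨c, hc, fun d hd => eq_of_res_eq L.U (fun _ => le_top) (fun x _ => ⟨x, L.mem x⟩)
    fun x => (hd x).trans (hc x).symm⟩

/-- Multiples of a section by a function. -/
def Sec.scale {L : LB X} (a : Γ(X, ⊤)) (s : L.Sec) : L.Sec where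
  s x := res le_top a * s.s x
  rel x y := by
    rw [map_mul, map_mul, s.rel, res_res, res_res]
    ring

theorem Sec.Pairs.scale {L : LB X} {s : L.Sec} {t : L.inv.Sec} {c : Γ(X, ⊤)} (h : s.Pairs t c)
    (a : Γ(X, ⊤)) : s.Pairs (t.scale a) (a * c) := fun x => by
  refine (map_mul _ a c).trans ?_
  rw [h x]
  exact mul_left_comm _ _ _

/-- A global section equal to a power of `f` on the locus of `f` inside a chart. -/
theorem exists_sec_pow [IsAffine X] (L : LB X) (f : Γ(X, ⊤)) (x₀ : X)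
    (hf : X.basicOpen f ≤ L.U x₀) :
    ∃ (σ : L.Sec) (M : ℕ), res hf (σ.s x₀) = res le_top f ^ M := by
  classical
  have hb : ∀ y, ∃ g : Γ(X, ⊤), X.basicOpen g ≤ L.U y ∧ y ∈ X.basicOpen g := fun y =>
    (isAffineOpen_top X).exists_basicOpen_le ⟨y, L.mem y⟩ trivial
  choose g hgU hgy using hb
  obtain ⟨T, hT⟩ := isCompact_univ.elim_finite_subcover (fun y => (X.basicOpen (g y) : Set X))
    (fun y => (X.basicOpen (g y)).isOpen) (fun y _ => Set.mem_iUnion.2 ⟨y, hgy y⟩)
  have cov : ∀ x : X, ∃ i : T, x ∈ X.basicOpen (g i) := fun x => by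
    simpa using hT (Set.mem_univ x)
  let W : T → X.Opens := fun i => X.basicOpen (g i)
  have hWU : ∀ i : T, W i ≤ L.U i := fun i => hgU i
  have hWa : ∀ i j : T, IsAffineOpen (W i ⊓ W j) := fun i j => by
    rw [← Scheme.basicOpen_mul]
    exact (isAffineOpen_top X).basicOpen _
  have step1 : ∀ i : T, ∃ (N : ℕ) (b : Γ(X, W i)),
      res (inf_le_left : W i ⊓ X.basicOpen f ≤ W i) b =
        res le_top f ^ N * res (inf_le_inf (hWU i) hf) (L.g i x₀) := fun i =>
    exists_res_eq_pow_mul ((isAffineOpen_top X).basicOpen _) f inf_le_left rfl _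
  choose N b hb using step1
  let B : ℕ := Finset.univ.sup N
  let b' : ∀ i, Γ(X, W i) := fun i => res le_top f ^ (B - N i) * b i
  have hb' : ∀ (i : T) (O : X.Opens) (h : O ≤ W i) (hO : O ≤ X.basicOpen f)
      (hg : O ≤ L.U i ⊓ L.U x₀),
      res h (b' i) = res le_top f ^ B * res hg (L.g i x₀) := by
    intro i O h hO hg
    have e := congrArg (res (le_inf h hO)) (hb i)
    simp only [map_mul, map_pow, res_res] at e
    simp only [b', map_mul, map_pow, res_res, e]
    rw [← mul_assoc, ← pow_add, Nat.sub_add_cancel (Finset.le_sup (Finset.mem_univ i))]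
  have step2 : ∀ i j : T, ∃ M : ℕ, res le_top f ^ M *
      (res inf_le_left (b' i) -
        res (inf_le_inf (hWU i) (hWU j)) (L.g i j) *
          res (inf_le_right : W i ⊓ W j ≤ W j) (b' j)) = 0 := by
    intro i j
    refine exists_pow_mul_eq_zero (hWa i j) f (V := W i ⊓ W j ⊓ X.basicOpen f) inf_le_left rfl ?_
    simp only [map_sub, map_mul, res_res]
    rw [hb' i _ _ inf_le_right (le_inf ((inf_le_left.trans inf_le_left).trans (hWU i))
        (inf_le_right.trans hf)),
      hb' j _ _ inf_le_right (le_inf ((inf_le_left.trans inf_le_right).trans (hWU j))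
        (inf_le_right.trans hf)), mul_left_comm,
      L.res_cocycle _ _ (le_inf ((inf_le_left.trans inf_le_left).trans (hWU i))
        (inf_le_right.trans hf)), sub_self]
  choose M hM using step2
  let C : ℕ := Finset.univ.sup fun p : T × T => M p.1 p.2
  let c : ∀ i, Γ(X, W i) := fun i => res le_top f ^ C * b' i
  obtain ⟨σ, hσ⟩ := exists_sec (L := L) W (fun i => (i : X)) hWU cov c fun i j O h₁ h₂ h => by
    have e := congrArg (res (le_inf h₁ h₂)) (hM i j)
    simp only [map_mul, map_sub, map_pow, res_res, map_zero] at e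
    have hC : C = (C - M i j) + M i j :=
      (Nat.sub_add_cancel (Finset.le_sup (f := fun p : T × T => M p.1 p.2)
        (Finset.mem_univ (i, j)))).symm
    simp only [c, map_mul, map_pow, res_res]
    rw [hC, pow_add]
    linear_combination res (le_top : O ≤ ⊤) f ^ (C - M i j) * e
  refine ⟨σ, C + B, eq_of_res_eq (fun i => X.basicOpen f ⊓ W i) (fun i => inf_le_left)
    (fun x hx => ?_) fun i => ?_⟩
  · obtain ⟨i, hi⟩ := cov x
    exact ⟨i, hx, hi⟩
  have hg : X.basicOpen f ⊓ W i ≤ L.U x₀ ⊓ L.U i := inf_le_inf hf (hWU i)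
  rw [res_res, σ.res_rel (inf_le_left.trans hf) (inf_le_right.trans (hWU i)) hg,
    ← res_res (hWU i) inf_le_right, hσ i]
  simp only [c, map_mul, map_pow, res_res]
  rw [hb' i _ _ inf_le_left (hg.trans (le_inf inf_le_right inf_le_left)), pow_add]
  linear_combination res le_top f ^ C * res le_top f ^ B *
    L.res_g_mul_g hg (hg.trans (le_inf inf_le_right inf_le_left))

theorem exists_frame_aux [IsAffine X] (L : LB X) :
    ∃ (N : ℕ) (σ : Fin N → L.Sec) (τ : Fin N → L.inv.Sec) (c : Fin N → Γ(X, ⊤)),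
      (∀ k, (σ k).Pairs (τ k) (c k)) ∧ ∑ k, c k = 1 := by
  classical
  have hb : ∀ y, ∃ g : Γ(X, ⊤), X.basicOpen g ≤ L.U y ∧ y ∈ X.basicOpen g := fun y =>
    (isAffineOpen_top X).exists_basicOpen_le ⟨y, L.mem y⟩ trivial
  choose g hgU hgy using hb
  obtain ⟨T, hT⟩ := isCompact_univ.elim_finite_subcover (fun y => (X.basicOpen (g y) : Set X))
    (fun y => (X.basicOpen (g y)).isOpen) (fun y _ => Set.mem_iUnion.2 ⟨y, hgy y⟩)
  let e := T.equivFin.symm
  let y : Fin T.card → X := fun k => e k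
  choose σ A hσ using fun k => exists_sec_pow L (g (y k)) (y k) (hgU _)
  choose τ A' hτ using fun k => exists_sec_pow L.inv (g (y k)) (y k) (hgU _)
  choose c hc using fun k => ((σ k).exists_pairs (τ k)).exists
  have hspan : Ideal.span (Set.range c) = ⊤ := by
    refine (isAffineOpen_top X).self_le_iSup_basicOpen_iff.1 fun x _ => ?_
    obtain ⟨z, hzT, hz⟩ : ∃ z ∈ T, x ∈ X.basicOpen (g z) := by simpa using hT (Set.mem_univ x)
    obtain ⟨k, hk⟩ : ∃ k, y k = z := ⟨e.symm ⟨z, hzT⟩, by simp [y]⟩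
    subst hk
    refine Opens.mem_iSup.2 ⟨⟨c k, k, rfl⟩, ?_⟩
    show x ∈ X.basicOpen (c k)
    have hu : IsUnit (res (le_top : X.basicOpen (g (y k)) ≤ ⊤) (c k)) := by
      have e1 := congrArg (res (hgU (y k))) (hc k (y k))
      rw [res_res, map_mul] at e1
      have hgu : IsUnit (res (le_top : X.basicOpen (g (y k)) ≤ ⊤) (g (y k))) :=
        X.toLocallyRingedSpace.toRingedSpace.isUnit_res_basicOpen (g (y k))
      rw [e1]
      exact ((hσ k).symm ▸ hgu.pow (A k) : IsUnit _).mul ((hτ k).symm ▸ hgu.pow (A' k) : IsUnit _)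
    rw [Scheme.mem_basicOpen_top]
    have := hu.map (X.presheaf.germ _ x hz).hom
    rwa [res, TopCat.Presheaf.germ_res_apply] at this
  obtain ⟨h, hh⟩ := Ideal.mem_span_range_iff_exists_fun.1
    (hspan.symm ▸ Submodule.mem_top : (1 : Γ(X, ⊤)) ∈ Ideal.span (Set.range c))
  exact ⟨T.card, σ, fun k => (τ k).scale (h k), fun k => h k * c k,
    fun k => (hc k).scale (h k), hh⟩

theorem isTrivial_of_cover_aux {L : LB X} {ι : Type u} (W : ι → X.Opens) (hW : ⨆ i, W i = ⊤)
    (s : ∀ i x, Γ(X, W i ⊓ L.U x)) (hu : ∀ i x, IsUnit (s i x))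
    (hrel : ∀ i x y (O : X.Opens) (h₁ : O ≤ W i ⊓ L.U x) (h₂ : O ≤ W i ⊓ L.U y)
      (h₃ : O ≤ L.U x ⊓ L.U y), res h₁ (s i x) = res h₃ (L.g x y) * res h₂ (s i y))
    (hagree : ∀ i j x (O : X.Opens) (h₁ : O ≤ W i ⊓ L.U x) (h₂ : O ≤ W j ⊓ L.U x),
      res h₁ (s i x) = res h₂ (s j x)) : L.IsTrivial := by
  have cov : ∀ x : X, ∃ i, x ∈ W i := fun x => Opens.mem_iSup.1 (hW ▸ trivial)
  refine isTrivial_of_values (ι := ι × X) (fun p => W p.1 ⊓ L.U p.2) Prod.snd
    (fun p => inf_le_right) (fun x => ?_) (fun p => s p.1 p.2) (fun p => hu _ _) ?_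
  · obtain ⟨i, hi⟩ := cov x
    exact ⟨(i, x), hi, L.mem x⟩
  rintro ⟨i, x⟩ ⟨j, y⟩ O h₁ h₂ h
  have h12 : O ≤ W i ⊓ L.U y := le_inf (h₁.trans inf_le_left) (h₂.trans inf_le_right)
  rw [hrel i x y O h₁ h12 h, hagree i j y O h12 h₂]

end LB

end FLTAgent.AbScheme
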