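import Fermat.Agent.AbScheme.Defs
import Fermat.Agent.AbScheme.Line.Section

/-!
The cocycle of a locally principal divisor on an integral scheme.
-/

set_option autoImplicit false
set_option linter.unusedSectionVars false

noncomputable section

universe u

namespace FLTAgent.AbScheme

open CategoryTheory AlgebraicGeometry TopologicalSpace Opposite

variable {X Y : Scheme.{u}} [IsIntegral X] [IsIntegral Y]

theorem genericPoint_mem {U : X.Opens} {x : X} (hx : x ∈ U) : genericPoint X ∈ U :=
  ((genericPoint_spec X).specializes trivial).mem_open U.isOpen hx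

/-- A section represents an element of the function field. -/
def Rep {U : X.Opens} (s : Γ(X, U)) (a : X.functionField) : Prop :=
  ∀ h : genericPoint X ∈ U, X.presheaf.germ U (genericPoint X) h s = a

theorem Rep.unique {U : X.Opens} {s t : Γ(X, U)} {a : X.functionField} (hs : Rep s a)
    (ht : Rep t a) : s = t := by
  rcases Set.eq_empty_or_nonempty (U : Set X) with h | ⟨x, hx⟩
  · exact eq_of_res_eq (fun e : Empty => e.elim) (fun e => e.elim)
      (fun x hx => absurd hx (Set.eq_empty_iff_forall_notMem.1 h x)) fun e => e.elim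
  · exact germ_injective_of_isIntegral X _ (genericPoint_mem hx)
      ((hs (genericPoint_mem hx)).trans (ht (genericPoint_mem hx)).symm)

theorem Rep.res {U V : X.Opens} {s : Γ(X, U)} {a : X.functionField} (hs : Rep s a) (e : V ≤ U) :
    Rep (res e s) a := fun h => by
  rw [← hs (e h)]
  exact TopCat.Presheaf.germ_res_apply X.presheaf (homOfLE e) _ h s

theorem Rep.mul {U : X.Opens} {s t : Γ(X, U)} {a b : X.functionField} (hs : Rep s a)
    (ht : Rep t b) : Rep (s * t) (a * b) := fun h => by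
  rw [map_mul, hs h, ht h]

theorem rep_one (U : X.Opens) : Rep (1 : Γ(X, U)) (1 : X.functionField) := fun h => map_one _

theorem Rep.eq_of_mem {U : X.Opens} {s : Γ(X, U)} {a b : X.functionField} {x : X} (hx : x ∈ U)
    (ha : Rep s a) (hb : Rep s b) : a = b :=
  (ha (genericPoint_mem hx)).symm.trans (hb (genericPoint_mem hx))

theorem algebraMap_germ {U : X.Opens} {x : X} (hx : x ∈ U) (s : Γ(X, U)) :
    algebraMap (X.presheaf.stalk x) X.functionField (X.presheaf.germ U x hx s) =
      X.presheaf.germ U (genericPoint X) (genericPoint_mem hx) s := by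
  rw [RingHom.algebraMap_toAlgebra, ← ConcreteCategory.comp_apply,
    X.presheaf.germ_stalkSpecializes]

theorem Rep.mem_range {U : X.Opens} {s : Γ(X, U)} {a : X.functionField} (hs : Rep s a) {x : X}
    (hx : x ∈ U) : a ∈ (algebraMap (X.presheaf.stalk x) X.functionField).range :=
  ⟨X.presheaf.germ U x hx s, by rw [algebraMap_germ]; exact hs _⟩

theorem exists_rep {U : X.Opens} {a : X.functionField}
    (ha : ∀ x ∈ U, a ∈ (algebraMap (X.presheaf.stalk x) X.functionField).range) :
    ∃ s : Γ(X, U), Rep s a := by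
  have h : ∀ x : U, ∃ (V : X.Opens) (_ : V ≤ U) (s : Γ(X, V)), x.1 ∈ V ∧ Rep s a := by
    intro x
    obtain ⟨r, hr⟩ := ha x.1 x.2
    obtain ⟨V, hV, s, hs⟩ := X.presheaf.exists_germ_eq r
    refine ⟨V ⊓ U, inf_le_right, AbScheme.res inf_le_left s, ⟨hV, x.2⟩, Rep.res (fun h => ?_) _⟩
    rw [← hr, ← hs, algebraMap_germ]
  choose V hVU s hxV hs using h
  obtain ⟨t, ht⟩ := exists_res_eq (fun x => V x) hVU (fun x hx => ⟨⟨x, hx⟩, hxV _⟩) s
    fun x y => ((hs x).res inf_le_left).unique ((hs y).res inf_le_right)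
  refine ⟨t, fun h => ?_⟩
  have e := (hs ⟨_, h⟩) (hxV ⟨_, h⟩)
  rw [← ht ⟨_, h⟩] at e
  rw [← e]
  exact (TopCat.Presheaf.germ_res_apply X.presheaf _ _ _ _).symm

theorem Rep.isUnit {U : X.Opens} {s t : Γ(X, U)} {a : (X.functionField)ˣ}
    (hs : Rep s (a : X.functionField)) (ht : Rep t ((a⁻¹ : (X.functionField)ˣ) : X.functionField)) :
    IsUnit s :=
  IsUnit.of_mul_eq_one t (Rep.unique (hs.mul ht) (by simpa using rep_one U))

theorem Rep.app {U : Y.Opens} {s : Γ(Y, U)} {a : Y.functionField} (π : X ⟶ Y)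
    (hπ : π (genericPoint X) = genericPoint Y) (hs : Rep s a) :
    Rep ((π.app U).hom s) (fnMap π hπ a) := fun h => by
  have hY : genericPoint Y ∈ U := hπ ▸ h
  rw [← hs hY]
  show _ = (Y.presheaf.germ U _ hY ≫ Y.presheaf.stalkSpecializes (specializes_of_eq hπ) ≫
    π.stalkMap (genericPoint X)) s
  rw [TopCat.Presheaf.germ_stalkSpecializes_assoc, Scheme.Hom.germ_stalkMap]
  rfl

/-- A cocycle attached to a divisor by local equations. -/
structure IsBundle (D : CDiv X) (L : LB X) (f : X → (X.functionField)ˣ) : Prop where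
  eq : ∀ x, ∀ y ∈ L.U x, D.1 y = QuotientGroup.mk (f x)
  rep : ∀ x y, Rep (L.g x y) ((f x * (f y)⁻¹ : (X.functionField)ˣ) : X.functionField)

theorem unitsAt_mem_range {x : X} {a : (X.functionField)ˣ} (h : a ∈ unitsAt X x) :
    (a : X.functionField) ∈ (algebraMap (X.presheaf.stalk x) X.functionField).range := by
  obtain ⟨r, rfl⟩ := h
  exact ⟨r, rfl⟩

theorem exists_rep_div {D : CDiv X} {U : X.Opens} {f g : (X.functionField)ˣ}
    (hf : ∀ y ∈ U, D.1 y = QuotientGroup.mk f) (hg : ∀ y ∈ U, D.1 y = QuotientGroup.mk g) :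
    ∃ s : Γ(X, U), IsUnit s ∧ Rep s ((f * g⁻¹ : (X.functionField)ˣ) : X.functionField) := by
  have h : ∀ (f g : (X.functionField)ˣ), (∀ y ∈ U, D.1 y = QuotientGroup.mk f) →
      (∀ y ∈ U, D.1 y = QuotientGroup.mk g) →
      ∃ s : Γ(X, U), Rep s ((f * g⁻¹ : (X.functionField)ˣ) : X.functionField) :=
    fun f g hf hg => exists_rep fun y hy => unitsAt_mem_range (by
      rw [mul_comm]
      exact QuotientGroup.eq.1 ((hg y hy).symm.trans (hf y hy)))
  obtain ⟨s, hs⟩ := h f g hf hg
  obtain ⟨t, ht⟩ := h g f hg hf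
  refine ⟨s, hs.isUnit (t := t) ?_, hs⟩
  rwa [_root_.mul_inv_rev, inv_inv]

theorem exists_isBundle (D : CDiv X) : ∃ L f, IsBundle D L f := by
  choose U hU f hf using D.2
  choose g _ hg using fun x y => exists_rep_div (U := U x ⊓ U y)
    (fun z hz => hf x z hz.1) (fun z hz => hf y z hz.2)
  refine ⟨⟨U, hU, g, fun x => (hg x x).unique (by simpa using rep_one _),
    fun x y z W h₁ h₂ h₃ => ?_⟩, f, hf, hg⟩
  refine Rep.unique ?_ ((hg x z).res h₃)
  have e := ((hg x y).res h₁).mul ((hg y z).res h₂)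
  rwa [← Units.val_mul, ← mul_assoc, inv_mul_cancel_right] at e

theorem IsBundle.iso {D : CDiv X} {L M : LB X} {f f' : X → (X.functionField)ˣ}
    (h : IsBundle D L f) (h' : IsBundle D M f') : L.Iso M := by
  choose c hu hc using fun x => exists_rep_div (U := L.U x ⊓ M.U x)
    (fun z hz => h.eq x z hz.1) (fun z hz => h'.eq x z hz.2)
  refine LB.iso_of_values (fun x => L.U x ⊓ M.U x) (fun _ => inf_le_left) (fun _ => inf_le_right)
    (fun x => ⟨L.mem x, M.mem x⟩) c hu fun x y O h₁ h₂ hl hm => ?_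
  have e₁ := ((hc x).res h₁).mul ((h'.rep x y).res hm)
  have e₂ := ((h.rep x y).res hl).mul ((hc y).res h₂)
  rw [← Units.val_mul, ← mul_assoc, inv_mul_cancel_right] at e₁ e₂
  exact e₁.unique e₂

theorem IsBundle.mul {D E : CDiv X} {L M : LB X} {f g : X → (X.functionField)ˣ}
    (h : IsBundle D L f) (h' : IsBundle E M g) : IsBundle (D * E) (L.mul M) (f * g) where
  eq x y hy := by
    show D.1 y * E.1 y = _
    rw [h.eq x y hy.1, h'.eq x y hy.2]
    rfl
  rep x y := by
    have e := ((h.rep x y).res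
      (inf_le_inf inf_le_left inf_le_left : (L.mul M).U x ⊓ (L.mul M).U y ≤ _)).mul
      ((h'.rep x y).res
        (inf_le_inf inf_le_right inf_le_right : (L.mul M).U x ⊓ (L.mul M).U y ≤ _))
    rw [← Units.val_mul, mul_mul_mul_comm, ← mul_inv] at e
    exact e

theorem isBundle_principal (f : (X.functionField)ˣ) :
    IsBundle (CDiv.principal f) (LB.one X) (fun _ => f) where
  eq _ _ _ := rfl
  rep _ _ := by
    rw [mul_inv_cancel]
    exact rep_one _

theorem IsBundle.exists_rep_sec {D : CDiv X} {L : LB X} {f : X → (X.functionField)ˣ}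
    (h : IsBundle D L f) (s : L.Sec) :
    ∃ a : X.functionField, ∀ x, Rep (s.s x) (a * f x) := by
  let η := genericPoint X
  let a : X → X.functionField := fun x =>
    X.presheaf.germ (L.U x) η (genericPoint_mem (L.mem x)) (s.s x) * ((f x)⁻¹ : (X.functionField)ˣ)
  have key : ∀ x y, a x = a y := by
    intro x y
    have hη : η ∈ L.U x ⊓ L.U y := ⟨genericPoint_mem (L.mem x), genericPoint_mem (L.mem y)⟩
    have e := congrArg (X.presheaf.germ _ η hη) (s.rel x y)
    simp only [map_mul, res, TopCat.Presheaf.germ_res_apply] at e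
    simp only [a]
    rw [e, show X.presheaf.germ (L.U x ⊓ L.U y) η hη (L.g x y) = _ from h.rep x y hη, Units.val_mul]
    have hx : ((f x : (X.functionField)ˣ) : X.functionField) *
        ((f x)⁻¹ : (X.functionField)ˣ) = 1 := Units.mul_inv _
    linear_combination (((f y)⁻¹ : (X.functionField)ˣ) : X.functionField) *
      X.presheaf.germ (L.U y) η hη.2 (s.s y) * hx
  rcases isEmpty_or_nonempty X with hX | ⟨⟨x₀⟩⟩
  · exact ⟨0, fun x => (hX.false x).elim⟩
  refine ⟨a x₀, fun x hx => ?_⟩
  rw [key x₀ x]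
  simp only [a]
  rw [Units.inv_mul_cancel_right]

theorem IsBundle.exists_sec_of_forall {D : CDiv X} {L : LB X} {f : X → (X.functionField)ˣ}
    (h : IsBundle D L f) {a : X.functionField}
    (ha : ∀ x, ∀ y ∈ L.U x,
      a * f x ∈ (algebraMap (X.presheaf.stalk y) X.functionField).range) :
    ∃ s : L.Sec, ∀ x, Rep (s.s x) (a * f x) := by
  choose s hs using fun x => exists_rep (U := L.U x) (ha x)
  refine ⟨⟨s, fun x y => ?_⟩, hs⟩
  refine Rep.unique ((hs x).res _) ?_
  have e := (h.rep x y).mul ((hs y).res (inf_le_right : L.U x ⊓ L.U y ≤ _))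
  have hy : ((f y)⁻¹ : (X.functionField)ˣ) * (f y : X.functionField) = 1 := Units.inv_mul _
  have he : ((f x * (f y)⁻¹ : (X.functionField)ˣ) : X.functionField) * (a * f y) = a * f x := by
    rw [Units.val_mul]
    linear_combination a * (f x : X.functionField) * hy
  rwa [he] at e

theorem IsBundle.isTrivial_iff {D : CDiv X} {L : LB X} {f : X → (X.functionField)ˣ}
    (h : IsBundle D L f) : L.IsTrivial ↔ ∃ F, D = CDiv.principal F := by
  constructor
  · rintro ⟨s, hs⟩
    obtain ⟨a, ha⟩ := h.exists_rep_sec s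
    rcases isEmpty_or_nonempty X with hX | ⟨⟨x₀⟩⟩
    · exact ⟨1, Subtype.ext (funext fun x => (hX.false x).elim)⟩
    have ha0 : a ≠ 0 := fun e => by
      have e₀ := ha x₀ (genericPoint_mem (L.mem x₀))
      rw [e, zero_mul] at e₀
      exact ((hs x₀).map (X.presheaf.germ _ _ (genericPoint_mem (L.mem x₀))).hom).ne_zero e₀
    refine ⟨(Units.mk0 a ha0)⁻¹, Subtype.ext (funext fun x => ?_)⟩
    rw [h.eq x x (L.mem x)]
    show QuotientGroup.mk (f x) = QuotientGroup.mk _
    rw [QuotientGroup.eq]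
    refine inv_mem_iff.1 ⟨((hs x).map (X.presheaf.germ _ x (L.mem x)).hom).unit, Units.ext ?_⟩
    show algebraMap (X.presheaf.stalk x) X.functionField _ = _
    rw [IsUnit.unit_spec, _root_.mul_inv_rev, inv_inv, inv_inv, Units.val_mul, Units.val_mk0]
    exact (algebraMap_germ (L.mem x) (s.s x)).trans (ha x _)
  · rintro ⟨F, rfl⟩
    exact LB.iso_one_iff.1 (h.iso (isBundle_principal F))

theorem IsBundle.pull {D : CDiv Y} {L : LB Y} {f : Y → (Y.functionField)ˣ} (π : X ⟶ Y)
    (hπ : π (genericPoint X) = genericPoint Y) (h : IsBundle D L f) :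
    IsBundle (CDiv.pull π hπ D) (L.pull π)
      (fun x => Units.map (fnMap π hπ).toMonoidHom (f (π x))) where
  eq x y hy := by
    show eqMapAt π hπ y (D.1 (π y)) = _
    rw [h.eq (π x) (π y) hy]
    rfl
  rep x y := by
    rw [← map_inv, ← map_mul]
    exact (h.rep (π x) (π y)).app π hπ

end FLTAgent.AbScheme
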