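import Fermat.Agent.AbScheme.LineDefs

/-!
Cocycles of units: sections from local values, isomorphism, pullback.
-/

set_option autoImplicit false
set_option linter.unusedSectionVars false

noncomputable section

universe u v

namespace FLTAgent.AbScheme

open CategoryTheory AlgebraicGeometry TopologicalSpace Opposite

variable {X Y Z : Scheme.{u}}

/-- Equality of sections is local. -/
theorem eq_of_res_eq {U : X.Opens} {ι : Type v} (W : ι → X.Opens) (hle : ∀ i, W i ≤ U)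
    (cov : ∀ x ∈ U, ∃ i, x ∈ W i) {a b : Γ(X, U)}
    (h : ∀ i, res (hle i) a = res (hle i) b) : a = b :=
  X.sheaf.eq_of_locally_eq' W U (fun i => homOfLE (hle i))
    (fun x hx => Opens.mem_iSup.2 (cov x hx)) a b h

/-- Gluing of sections. -/
theorem exists_res_eq {U : X.Opens} {ι : Type v} (W : ι → X.Opens) (hle : ∀ i, W i ≤ U)
    (cov : ∀ x ∈ U, ∃ i, x ∈ W i) (a : ∀ i, Γ(X, W i))
    (h : ∀ i j, res inf_le_left (a i) = res (inf_le_right : W i ⊓ W j ≤ W j) (a j)) :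
    ∃ b : Γ(X, U), ∀ i, res (hle i) b = a i :=
  (X.sheaf.existsUnique_gluing' W U (fun i => homOfLE (hle i))
    (fun x hx => Opens.mem_iSup.2 (cov x hx)) a h).exists

/-- Restriction commutes with the action of a morphism. -/
theorem res_app (φ : X ⟶ Y) {A B : Y.Opens} {W : X.Opens} (e : B ≤ A) (h : W ≤ φ ⁻¹ᵁ A)
    (h' : W ≤ φ ⁻¹ᵁ B) (a : Γ(Y, A)) :
    res h ((φ.app A).hom a) = res h' ((φ.app B).hom (res e a)) := by
  simp only [res, ← ConcreteCategory.comp_apply]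
  rw [Scheme.Hom.naturality, Category.assoc, ← Functor.map_comp]
  rfl

/-- A section which is a unit near every point is a unit. -/
theorem isUnit_of_res {U : X.Opens} {ι : Type v} (W : ι → X.Opens) (hle : ∀ i, W i ≤ U)
    (cov : ∀ x ∈ U, ∃ i, x ∈ W i) {a : Γ(X, U)} (h : ∀ i, IsUnit (res (hle i) a)) : IsUnit a := by
  refine X.toLocallyRingedSpace.toRingedSpace.isUnit_of_isUnit_germ U a fun x hx => ?_
  obtain ⟨i, hi⟩ := cov x hx
  have := (h i).map (X.presheaf.germ (W i) x hi).hom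
  rwa [res, TopCat.Presheaf.germ_res_apply] at this

namespace LB

variable (L M N : LB X)

theorem U_one (x : X) : (LB.one X).U x = ⊤ := rfl

theorem U_mul (x : X) : (L.mul M).U x = L.U x ⊓ M.U x := rfl

theorem res_g_mul {x y : X} {W : X.Opens} (h : W ≤ (L.mul M).U x ⊓ (L.mul M).U y) :
    res h ((L.mul M).g x y) =
      res (h.trans (inf_le_inf inf_le_left inf_le_left) : W ≤ L.U x ⊓ L.U y) (L.g x y) *
        res (h.trans (inf_le_inf inf_le_right inf_le_right) : W ≤ M.U x ⊓ M.U y) (M.g x y) :=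
  (map_mul (res h) _ _).trans (congrArg₂ (· * ·) (res_res _ _ _) (res_res _ _ _))

theorem res_g_inv {x y : X} {W : X.Opens} (h : W ≤ L.inv.U x ⊓ L.inv.U y) :
    res h (L.inv.g x y) =
      res (h.trans (le_inf inf_le_right inf_le_left) : W ≤ L.U y ⊓ L.U x) (L.g y x) :=
  res_res _ _ _

theorem res_g_one {x y : X} {W : X.Opens} (h : W ≤ (LB.one X).U x ⊓ (LB.one X).U y) :
    res h ((LB.one X).g x y) = 1 :=
  map_one _

theorem res_cocycle {x y z : X} {W : X.Opens} (h₁ : W ≤ L.U x ⊓ L.U y) (h₂ : W ≤ L.U y ⊓ L.U z)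
    (h₃ : W ≤ L.U x ⊓ L.U z) : res h₁ (L.g x y) * res h₂ (L.g y z) = res h₃ (L.g x z) :=
  L.cocycle x y z W h₁ h₂ h₃

theorem res_self_g {x : X} {W : X.Opens} (h : W ≤ L.U x ⊓ L.U x) : res h (L.g x x) = 1 := by
  rw [L.self, map_one]

theorem res_g_mul_g {x y : X} {W : X.Opens} (h₁ : W ≤ L.U x ⊓ L.U y)
    (h₂ : W ≤ L.U y ⊓ L.U x) : res h₁ (L.g x y) * res h₂ (L.g y x) = 1 := by
  rw [L.res_cocycle h₁ h₂ (le_inf (h₁.trans inf_le_left) (h₁.trans inf_le_left)), L.res_self_g]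

theorem isUnit_res_g {x y : X} {W : X.Opens} (h : W ≤ L.U x ⊓ L.U y) :
    IsUnit (res h (L.g x y)) :=
  IsUnit.of_mul_eq_one _ (L.res_g_mul_g h (le_inf (h.trans inf_le_right) (h.trans inf_le_left)))

variable {L M N}

theorem Sec.res_rel (s : L.Sec) {x y : X} {W : X.Opens} (h₁ : W ≤ L.U x) (h₂ : W ≤ L.U y)
    (h : W ≤ L.U x ⊓ L.U y) : res h₁ (s.s x) = res h (L.g x y) * res h₂ (s.s y) := by
  have e := congrArg (res h) (s.rel x y)
  simpa only [map_mul, res_res] using e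

/-- Sections from values on the pieces of a cover, each read in a chart. -/
theorem exists_sec {ι : Type v} (W : ι → X.Opens) (κ : ι → X) (hW : ∀ i, W i ≤ L.U (κ i))
    (cov : ∀ x, ∃ i, x ∈ W i) (c : ∀ i, Γ(X, W i))
    (hc : ∀ i j (O : X.Opens) (h₁ : O ≤ W i) (h₂ : O ≤ W j) (h : O ≤ L.U (κ i) ⊓ L.U (κ j)),
      res h₁ (c i) = res h (L.g (κ i) (κ j)) * res h₂ (c j)) :
    ∃ s : L.Sec, ∀ i, res (hW i) (s.s (κ i)) = c i := by
  have hg : ∀ x, ∃ b : Γ(X, L.U x), ∀ i,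
      res (inf_le_left : L.U x ⊓ W i ≤ _) b =
        res (inf_le_inf le_rfl (hW i)) (L.g x (κ i)) * res inf_le_right (c i) := by
    intro x
    refine exists_res_eq (fun i => L.U x ⊓ W i) (fun i => inf_le_left) (fun y hy => ?_) _ fun i j => ?_
    · obtain ⟨i, hi⟩ := cov y
      exact ⟨i, hy, hi⟩
    simp only [map_mul, res_res]
    rw [hc i j _ (inf_le_left.trans inf_le_right) (inf_le_right.trans inf_le_right)
      (le_inf ((inf_le_left.trans inf_le_right).trans (hW i))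
        ((inf_le_right.trans inf_le_right).trans (hW j))), ← mul_assoc, L.res_cocycle]
  choose b hb using hg
  have hb' : ∀ (x : X) (i : ι) (O : X.Opens) (h : O ≤ L.U x) (h' : O ≤ W i)
      (hg : O ≤ L.U x ⊓ L.U (κ i)),
      res h (b x) = res hg (L.g x (κ i)) * res h' (c i) := by
    intro x i O h h' hg
    have e := congrArg (res (le_inf h h')) (hb x i)
    simpa only [map_mul, res_res] using e
  refine ⟨⟨b, fun x y => ?_⟩, fun i => ?_⟩
  · refine eq_of_res_eq (fun i => L.U x ⊓ L.U y ⊓ W i) (fun i => inf_le_left) (fun z hz => ?_)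
      fun i => ?_
    · obtain ⟨i, hi⟩ := cov z
      exact ⟨i, hz, hi⟩
    simp only [map_mul, res_res]
    rw [hb' x i _ (inf_le_left.trans inf_le_left) inf_le_right
        (le_inf (inf_le_left.trans inf_le_left) (inf_le_right.trans (hW i))),
      hb' y i _ (inf_le_left.trans inf_le_right) inf_le_right
        (le_inf (inf_le_left.trans inf_le_right) (inf_le_right.trans (hW i))),
      ← mul_assoc, L.res_cocycle]
  · show res (hW i) (b (κ i)) = c i
    rw [hb' (κ i) i _ (hW i) le_rfl (le_inf (hW i) (hW i)), L.res_self_g, one_mul, res_self]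

/-- The same with units. -/
theorem isTrivial_of_values {ι : Type v} (W : ι → X.Opens) (κ : ι → X)
    (hW : ∀ i, W i ≤ L.U (κ i)) (cov : ∀ x, ∃ i, x ∈ W i) (c : ∀ i, Γ(X, W i))
    (hu : ∀ i, IsUnit (c i))
    (hc : ∀ i j (O : X.Opens) (h₁ : O ≤ W i) (h₂ : O ≤ W j) (h : O ≤ L.U (κ i) ⊓ L.U (κ j)),
      res h₁ (c i) = res h (L.g (κ i) (κ j)) * res h₂ (c j)) : L.IsTrivial := by
  obtain ⟨s, hs⟩ := exists_sec W κ hW cov c hc
  refine ⟨s, fun x => isUnit_of_res (fun i => L.U x ⊓ W i) (fun i => inf_le_left) (fun z hz => ?_)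
    fun i => ?_⟩
  · obtain ⟨i, hi⟩ := cov z
    exact ⟨i, hz, hi⟩
  rw [s.res_rel inf_le_left (inf_le_right.trans (hW i)) (inf_le_inf le_rfl (hW i)),
    ← res_res (hW i) inf_le_right, hs i]
  exact (L.isUnit_res_g _).mul ((hu i).map _)

/-- Isomorphisms from local units. -/
theorem iso_of_values (W : X → X.Opens) (hL : ∀ x, W x ≤ L.U x) (hM : ∀ x, W x ≤ M.U x)
    (mem : ∀ x, x ∈ W x) (c : ∀ x, Γ(X, W x)) (hu : ∀ x, IsUnit (c x))
    (hc : ∀ x y (O : X.Opens) (h₁ : O ≤ W x) (h₂ : O ≤ W y) (hl : O ≤ L.U x ⊓ L.U y)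
      (hm : O ≤ M.U x ⊓ M.U y),
      res h₁ (c x) * res hm (M.g x y) = res hl (L.g x y) * res h₂ (c y)) : L.Iso M := by
  refine isTrivial_of_values (L := L.mul M.inv) W id (fun x => le_inf (hL x) (hM x))
    (fun x => ⟨x, mem x⟩) c hu fun x y O h₁ h₂ h => ?_
  dsimp only [id] at h ⊢
  simp only [res_g_mul, res_g_inv]
  have h12 : O ≤ M.U x ⊓ M.U y := le_inf (h₁.trans (hM x)) (h₂.trans (hM y))
  have h21 : O ≤ M.U y ⊓ M.U x := le_inf (h₂.trans (hM y)) (h₁.trans (hM x))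
  have e := hc x y O h₁ h₂ (le_inf (h₁.trans (hL x)) (h₂.trans (hL y))) h12
  linear_combination res h21 (M.g y x) * e - res h₁ (c x) * M.res_g_mul_g h12 h21

theorem Iso.exists_values (h : L.Iso M) :
    ∃ c : ∀ x, Γ(X, L.U x ⊓ M.U x), (∀ x, IsUnit (c x)) ∧
      ∀ x y (O : X.Opens) (h₁ : O ≤ L.U x ⊓ M.U x) (h₂ : O ≤ L.U y ⊓ M.U y)
        (hl : O ≤ L.U x ⊓ L.U y) (hm : O ≤ M.U x ⊓ M.U y),
        res h₁ (c x) * res hm (M.g x y) = res hl (L.g x y) * res h₂ (c y) := by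
  obtain ⟨s, hs⟩ := h
  refine ⟨s.s, hs, fun x y O h₁ h₂ hl hm => ?_⟩
  have hm' : O ≤ M.U y ⊓ M.U x := le_inf (hm.trans inf_le_right) (hm.trans inf_le_left)
  have e : (res h₁ (s.s x) : Γ(X, O)) =
      res hl (L.g x y) * res hm' (M.g y x) * res h₂ (s.s y) := by
    refine (s.res_rel h₁ h₂ (le_inf h₁ h₂)).trans ?_
    rw [res_g_mul, res_g_inv]
    rfl
  linear_combination res hm (M.g x y) * e +
    res hl (L.g x y) * res h₂ (s.s y) * M.res_g_mul_g hm hm'

theorem iso_refl (L : LB X) : L.Iso L :=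
  iso_of_values L.U (fun _ => le_rfl) (fun _ => le_rfl) L.mem (fun _ => 1) (fun _ => isUnit_one)
    fun x y O h₁ h₂ hl hm => by simp

theorem Iso.symm (h : L.Iso M) : M.Iso L := by
  obtain ⟨c, hu, hc⟩ := h.exists_values
  choose d hd using fun x => isUnit_iff_exists_inv.1 (hu x)
  refine iso_of_values (fun x => L.U x ⊓ M.U x) (fun x => inf_le_right) (fun x => inf_le_left)
    (fun x => ⟨L.mem x, M.mem x⟩) d (fun x => IsUnit.of_mul_eq_one _ ((mul_comm _ _).trans (hd x)))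
    fun x y O h₁ h₂ hm hl => ?_
  have e := hc x y O h₁ h₂ hl hm
  have dx := congrArg (res h₁) (hd x)
  have dy := congrArg (res h₂) (hd y)
  simp only [map_mul, map_one] at dx dy
  linear_combination (-(res h₁ (d x) * res h₂ (d y))) * e +
    res hm (M.g x y) * res h₂ (d y) * dx - res hl (L.g x y) * res h₁ (d x) * dy

theorem Iso.trans (h : L.Iso M) (h' : M.Iso N) : L.Iso N := by
  obtain ⟨a, hau, ha⟩ := h.exists_values
  obtain ⟨b, hbu, hb⟩ := h'.exists_values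
  refine iso_of_values (fun x => L.U x ⊓ M.U x ⊓ N.U x) (fun x => inf_le_left.trans inf_le_left)
    (fun x => inf_le_right) (fun x => ⟨⟨L.mem x, M.mem x⟩, N.mem x⟩)
    (fun x => res inf_le_left (a x) *
      res (inf_le_inf inf_le_right le_rfl) (b x))
    (fun x => ((hau x).map _).mul ((hbu x).map _)) fun x y O h₁ h₂ hl hn => ?_
  simp only [map_mul, res_res]
  have k1 : O ≤ L.U x ⊓ M.U x := h₁.trans inf_le_left
  have k2 : O ≤ L.U y ⊓ M.U y := h₂.trans inf_le_left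
  have k1' : O ≤ M.U x ⊓ N.U x := h₁.trans (inf_le_inf inf_le_right le_rfl)
  have k2' : O ≤ M.U y ⊓ N.U y := h₂.trans (inf_le_inf inf_le_right le_rfl)
  have hm : O ≤ M.U x ⊓ M.U y := le_inf (k1.trans inf_le_right) (k2.trans inf_le_right)
  linear_combination res k1 (a x) * hb x y O k1' k2' hm hn + res k2' (b y) * ha x y O k1 k2 hl hm

theorem Iso.mul {L' M' : LB X} (h : L.Iso L') (h' : M.Iso M') : (L.mul M).Iso (L'.mul M') := by
  obtain ⟨a, hau, ha⟩ := h.exists_values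
  obtain ⟨b, hbu, hb⟩ := h'.exists_values
  refine iso_of_values (fun x => L.U x ⊓ L'.U x ⊓ (M.U x ⊓ M'.U x))
    (fun x => inf_le_inf inf_le_left inf_le_left) (fun x => inf_le_inf inf_le_right inf_le_right)
    (fun x => ⟨⟨L.mem x, L'.mem x⟩, M.mem x, M'.mem x⟩)
    (fun x => res inf_le_left (a x) * res inf_le_right (b x))
    (fun x => ((hau x).map _).mul ((hbu x).map _)) fun x y O h₁ h₂ hl hm => ?_
  simp only [res_g_mul, map_mul, res_res]
  have ea := ha x y O (h₁.trans inf_le_left) (h₂.trans inf_le_left)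
    (hl.trans (inf_le_inf inf_le_left inf_le_left)) (hm.trans (inf_le_inf inf_le_left inf_le_left))
  have eb := hb x y O (h₁.trans inf_le_right) (h₂.trans inf_le_right)
    (hl.trans (inf_le_inf inf_le_right inf_le_right))
    (hm.trans (inf_le_inf inf_le_right inf_le_right))
  rw [mul_mul_mul_comm, ea, eb, mul_mul_mul_comm]

theorem Iso.inv (h : L.Iso M) : L.inv.Iso M.inv := by
  obtain ⟨a, hau, ha⟩ := h.symm.exists_values
  refine iso_of_values (fun x => M.U x ⊓ L.U x) (fun x => inf_le_right) (fun x => inf_le_left)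
    (fun x => ⟨M.mem x, L.mem x⟩) a hau fun x y O h₁ h₂ hl hm => ?_
  simp only [res_g_inv]
  have := ha y x O h₂ h₁ (hm.trans (le_inf inf_le_right inf_le_left))
    (hl.trans (le_inf inf_le_right inf_le_left))
  linear_combination -this

theorem mul_iso_comm (L M : LB X) : (L.mul M).Iso (M.mul L) :=
  iso_of_values (fun x => L.U x ⊓ M.U x) (fun _ => le_rfl) (fun _ => le_inf inf_le_right inf_le_left)
    (fun x => ⟨L.mem x, M.mem x⟩) (fun _ => 1) (fun _ => isUnit_one) fun x y O h₁ h₂ hl hm => by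
      simp only [res_g_mul, map_one, one_mul, mul_one]
      exact mul_comm _ _

theorem mul_iso_assoc (L M N : LB X) : ((L.mul M).mul N).Iso (L.mul (M.mul N)) :=
  iso_of_values (fun x => L.U x ⊓ M.U x ⊓ N.U x) (fun _ => le_rfl)
    (fun _ => (inf_assoc _ _ _).le) (fun x => ⟨⟨L.mem x, M.mem x⟩, N.mem x⟩)
    (fun _ => 1) (fun _ => isUnit_one) fun x y O h₁ h₂ hl hm => by
      simp only [res_g_mul, map_one, one_mul, mul_one]
      exact (mul_assoc _ _ _).symm

theorem one_mul_iso (L : LB X) : ((LB.one X).mul L).Iso L :=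
  iso_of_values L.U (fun _ => le_inf le_top le_rfl) (fun _ => le_rfl) L.mem
    (fun _ => 1) (fun _ => isUnit_one) fun x y O h₁ h₂ hl hm => by
      simp only [res_g_mul, res_g_one, map_one, one_mul, mul_one]

theorem inv_mul_iso (L : LB X) : (L.inv.mul L).Iso (LB.one X) :=
  iso_of_values L.U (fun _ => le_inf le_rfl le_rfl) (fun _ => le_top) L.mem
    (fun _ => 1) (fun _ => isUnit_one) fun x y O h₁ h₂ hl hm => by
      simp only [res_g_mul, res_g_inv, res_g_one, map_one, one_mul, mul_one]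
      exact (L.res_g_mul_g _ _).symm

theorem iso_one_iff : L.Iso (LB.one X) ↔ L.IsTrivial := by
  constructor
  · intro h
    obtain ⟨c, hu, hc⟩ := h.exists_values
    refine isTrivial_of_values (fun x => L.U x ⊓ (LB.one X).U x) id (fun x => inf_le_left)
      (fun x => ⟨x, L.mem x, trivial⟩) c hu fun x y O h₁ h₂ h => ?_
    have := hc x y O h₁ h₂ h (le_inf le_top le_top)
    simpa [res_g_one] using this
  · rintro ⟨s, hs⟩
    exact iso_of_values L.U (fun _ => le_rfl) (fun _ => le_top) L.mem s.s hs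
      fun x y O h₁ h₂ hl hm => by rw [res_g_one, mul_one]; exact s.res_rel h₁ h₂ hl

theorem isTrivial_of_subsingleton [Subsingleton X] (L : LB X) : L.IsTrivial :=
  isTrivial_of_values L.U id (fun _ => le_rfl) (fun x => ⟨x, L.mem x⟩) (fun _ => 1)
    (fun _ => isUnit_one) fun x y O h₁ h₂ h => by
      obtain rfl := Subsingleton.elim x y
      dsimp only [id] at h ⊢
      rw [L.res_self_g]
      simp

theorem U_pull (φ : X ⟶ Y) (L : LB Y) (x : X) : (L.pull φ).U x = φ ⁻¹ᵁ L.U (φ x) := rfl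

theorem res_g_pull (φ : X ⟶ Y) (L : LB Y) {x y : X} {O : X.Opens}
    (h : O ≤ (L.pull φ).U x ⊓ (L.pull φ).U y) (h' : O ≤ φ ⁻¹ᵁ (L.U (φ x) ⊓ L.U (φ y))) :
    res h ((L.pull φ).g x y) = res h' ((φ.app _).hom (L.g (φ x) (φ y))) := rfl

theorem Iso.pull {L M : LB Y} (h : L.Iso M) (φ : X ⟶ Y) : (L.pull φ).Iso (M.pull φ) := by
  obtain ⟨c, hu, hc⟩ := h.exists_values
  refine iso_of_values (fun x => φ ⁻¹ᵁ (L.U (φ x) ⊓ M.U (φ x))) (fun x => fun z hz => hz.1)
    (fun x => fun z hz => hz.2) (fun x => ⟨L.mem _, M.mem _⟩)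
    (fun x => (φ.app _).hom (c (φ x))) (fun x => (hu _).map _) fun x y O h₁ h₂ hl hm => ?_
  set B := L.U (φ x) ⊓ M.U (φ x) ⊓ (L.U (φ y) ⊓ M.U (φ y))
  have hB : O ≤ φ ⁻¹ᵁ B := fun z hz => ⟨h₁ hz, h₂ hz⟩
  have e₁ : B ≤ L.U (φ x) ⊓ M.U (φ x) := inf_le_left
  have e₂ : B ≤ L.U (φ y) ⊓ M.U (φ y) := inf_le_right
  have el : B ≤ L.U (φ x) ⊓ L.U (φ y) := inf_le_inf inf_le_left inf_le_left
  have em : B ≤ M.U (φ x) ⊓ M.U (φ y) := inf_le_inf inf_le_right inf_le_right
  rw [res_g_pull φ M hm (hB.trans (φ.preimage_mono em)),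
    res_g_pull φ L hl (hB.trans (φ.preimage_mono el)), res_app φ e₁ h₁ hB, res_app φ e₂ h₂ hB,
    res_app φ em _ hB, res_app φ el _ hB, ← map_mul, ← map_mul, ← map_mul, ← map_mul,
    hc (φ x) (φ y) B e₁ e₂ el em]

theorem pull_mul_iso (φ : X ⟶ Y) (L M : LB Y) :
    ((L.mul M).pull φ).Iso ((L.pull φ).mul (M.pull φ)) := by
  refine iso_of_values (fun x => φ ⁻¹ᵁ (L.U (φ x) ⊓ M.U (φ x))) (fun _ => le_rfl)
    (fun x => fun z hz => hz) (fun x => ⟨L.mem _, M.mem _⟩) (fun _ => 1) (fun _ => isUnit_one)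
    fun x y O h₁ h₂ hl hm => ?_
  simp only [map_one, one_mul, mul_one, res_g_mul]
  set B := L.U (φ x) ⊓ M.U (φ x) ⊓ (L.U (φ y) ⊓ M.U (φ y))
  have hB : O ≤ φ ⁻¹ᵁ B := fun z hz => ⟨h₁ hz, h₂ hz⟩
  have el : B ≤ L.U (φ x) ⊓ L.U (φ y) := inf_le_inf inf_le_left inf_le_left
  have em : B ≤ M.U (φ x) ⊓ M.U (φ y) := inf_le_inf inf_le_right inf_le_right
  rw [res_g_pull φ L _ (hB.trans (φ.preimage_mono el)),
    res_g_pull φ M _ (hB.trans (φ.preimage_mono em)),
    res_g_pull φ (L.mul M) hl (fun z hz => ⟨⟨(h₁ hz).1, (h₁ hz).2⟩, (h₂ hz).1, (h₂ hz).2⟩),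
    res_app φ el _ hB, res_app φ em _ hB,
    res_app φ (show B ≤ (L.mul M).U (φ x) ⊓ (L.mul M).U (φ y) from le_rfl) _ hB,
    res_g_mul, map_mul, map_mul]

theorem pull_pull_iso (φ : X ⟶ Y) (ψ : Y ⟶ Z) (L : LB Z) :
    (L.pull (φ ≫ ψ)).Iso ((L.pull ψ).pull φ) :=
  iso_of_values (fun x => (L.pull (φ ≫ ψ)).U x) (fun _ => le_rfl) (fun _ => le_rfl)
    (fun x => L.mem _) (fun _ => 1) (fun _ => isUnit_one) fun x y O h₁ h₂ hl hm => by
      rw [map_one, one_mul, map_one, mul_one]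
      rfl

theorem pull_id_iso (L : LB X) : (L.pull (𝟙 X)).Iso L :=
  iso_of_values L.U (fun _ => le_rfl) (fun _ => le_rfl) L.mem (fun _ => 1) (fun _ => isUnit_one)
    fun x y O h₁ h₂ hl hm => by
      rw [map_one, one_mul, map_one, mul_one]
      rfl

end LB

end FLTAgent.AbScheme
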